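import Mathlib.NumberTheory.NumberField.ClassNumber
import Mathlib.NumberTheory.NumberField.Units.DirichletTheorem
import Mathlib.NumberTheory.NumberField.Discriminant.Basic
import Mathlib.Algebra.Polynomial.SpecificDegree
import Mathlib.RingTheory.Ideal.Norm.AbsNorm
import Mathlib.Analysis.Real.Pi.Bounds
import Mathlib.Tactic.NormNum.Prime
import Mathlib.FieldTheory.Finite.Basic

/-!
# The cubic field of discriminant `-172`

`K = ℚ(φ)` with `φ³ + 2φ² + 2 = 0`, the field of the points of order two of `43a1`: class number one,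
and the units of norm one are one class and the trivial one modulo squares.
-/

set_option autoImplicit false
set_option linter.style.haveILetI false
set_option linter.unusedSimpArgs false

noncomputable section

open Polynomial NumberField Module

namespace FA.Curve43

/-- The polynomial of `φ`. -/
def fK : ℚ[X] := X ^ 3 + C 2 * X ^ 2 + C 2

theorem fK_monic : fK.Monic := by unfold fK; monicity!

theorem natDegree_fK : fK.natDegree = 3 := by unfold fK; compute_degree!

theorem no_rat_root (x : ℚ) : x ^ 3 + 2 * x ^ 2 + 2 ≠ 0 := by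
  intro hx
  have e : x.num ^ 3 + 2 * x.num ^ 2 * (x.den : ℤ) + 2 * (x.den : ℤ) ^ 3 = 0 := by
    have : (x.num : ℚ) ^ 3 + 2 * (x.num : ℚ) ^ 2 * (x.den : ℚ) + 2 * (x.den : ℚ) ^ 3 = 0 := by
      rw [← Rat.mul_den_eq_num x]; linear_combination (x.den : ℚ) ^ 3 * hx
    exact_mod_cast this
  obtain ⟨m, hm⟩ : (2 : ℤ) ∣ x.num := Int.prime_two.dvd_of_dvd_pow (n := 3)
    ⟨-x.num ^ 2 * (x.den : ℤ) - (x.den : ℤ) ^ 3, by linear_combination e⟩
  rw [hm] at e
  have hd : (2 : ℤ) ∣ (x.den : ℤ) := Int.prime_two.dvd_of_dvd_pow (n := 3)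
    ⟨-2 * m ^ 3 - 2 * m ^ 2 * (x.den : ℤ), by linarith⟩
  exact absurd (Nat.dvd_gcd (Int.natCast_dvd.mp ⟨m, hm⟩) (Int.natCast_dvd_natCast.mp hd))
    (by rw [x.reduced]; decide)

theorem fK_irreducible : Irreducible fK := by
  rw [fK_monic.irreducible_iff_roots_eq_zero_of_degree_le_three (by rw [natDegree_fK]; omega)
    (by rw [natDegree_fK])]
  refine Multiset.eq_zero_of_forall_notMem fun x hx => no_rat_root x ?_
  have := (mem_roots'.mp hx).2
  simpa [fK] using this

instance fact_fK : Fact (Irreducible fK) := ⟨fK_irreducible⟩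

/-- The cubic field. -/
abbrev K : Type := AdjoinRoot fK

/-- The root. -/
abbrev phi : K := AdjoinRoot.root fK

instance charZero_K : CharZero K := charZero_of_injective_algebraMap (algebraMap ℚ K).injective

instance finiteDimensional_K : FiniteDimensional ℚ K :=
  (AdjoinRoot.powerBasis fK_monic.ne_zero).finite

instance numberField_K : NumberField K := {}

theorem phi_eq : phi ^ 3 + 2 * phi ^ 2 + 2 = 0 := by
  have h : aeval phi fK = 0 := (AdjoinRoot.aeval_eq fK).trans AdjoinRoot.mk_self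
  simpa [fK, map_ofNat] using h

theorem finrank_K : finrank ℚ K = 3 := by
  rw [(AdjoinRoot.powerBasis fK_monic.ne_zero).finrank, AdjoinRoot.powerBasis_dim, natDegree_fK]

/-- The basis `1, φ, φ²`. -/
def basisK : Basis (Fin 3) ℚ K :=
  (AdjoinRoot.powerBasis fK_monic.ne_zero).basis.reindex
    (finCongr (by rw [AdjoinRoot.powerBasis_dim, natDegree_fK]))

theorem basisK_apply (j : Fin 3) : basisK j = phi ^ (j : ℕ) := by simp [basisK, phi]

/-- The element `x + y φ + z φ²`. -/
def el (x y z : ℚ) : K := (x : K) + (y : K) * phi + (z : K) * phi ^ 2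

theorem el_eq_sum (x y z : ℚ) : el x y z = ∑ i, ![x, y, z] i • basisK i := by
  simp [el, Fin.sum_univ_three, basisK_apply, Algebra.smul_def]

theorem el_inj {x y z x' y' z' : ℚ} (h : el x y z = el x' y' z') :
    x = x' ∧ y = y' ∧ z = z' := by
  rw [el_eq_sum, el_eq_sum] at h
  have e : ∀ c : Fin 3 → ℚ, ⇑(basisK.repr (∑ i, c i • basisK i)) = c := fun c =>
    funext fun i => by rw [Basis.repr_sum_self]
  have := e ![x, y, z]
  rw [h, e] at this
  have h0 := congrFun this 0
  have h1 := congrFun this 1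
  have h2 := congrFun this 2
  simp at h0 h1 h2
  exact ⟨h0.symm, h1.symm, h2.symm⟩

theorem exists_el (k : K) : ∃ x y z : ℚ, k = el x y z :=
  ⟨basisK.repr k 0, basisK.repr k 1, basisK.repr k 2, by
    conv_lhs => rw [← basisK.sum_repr k]
    simp [el, Fin.sum_univ_three, basisK_apply, Algebra.smul_def]⟩

theorem el_mul (x y z x' y' z' : ℚ) : el x y z * el x' y' z' =
    el (x * x' - 2 * (y * z' + z * y') + 4 * (z * z'))
      (x * y' + y * x' - 2 * (z * z'))
      (x * z' + y * y' + z * x' - 2 * (y * z' + z * y') + 4 * (z * z')) := by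
  simp only [el]
  push_cast
  linear_combination ((y : K) * z' + z * y' + z * z' * (phi - 2)) * phi_eq

theorem leftMul_el (x y z : ℚ) : Algebra.leftMulMatrix basisK (el x y z) =
    !![x, -2 * z, -2 * y + 4 * z; y, x, -2 * z; z, y - 2 * z, x - 2 * y + 4 * z] := by
  ext i j
  rw [Algebra.leftMulMatrix_eq_repr_mul, basisK_apply]
  have hcol : el x y z * phi ^ (j : ℕ) = ∑ k, !![x, -2 * z, -2 * y + 4 * z;
      y, x, -2 * z; z, y - 2 * z, x - 2 * y + 4 * z] k j • basisK k := by
    fin_cases j <;> simp [el, Fin.sum_univ_three, basisK_apply, Algebra.smul_def, map_ofNat]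
    · linear_combination (z : K) * phi_eq
    · linear_combination ((z : K) * (phi - 2) + y) * phi_eq
  rw [hcol, Basis.repr_sum_self]

theorem norm_el (x y z : ℚ) : Algebra.norm ℚ (el x y z) =
    x * (x * (x - 2 * y + 4 * z) - -2 * z * (y - 2 * z)) -
      -2 * z * (y * (x - 2 * y + 4 * z) - -2 * z * z) +
      (-2 * y + 4 * z) * (y * (y - 2 * z) - x * z) := by
  rw [Algebra.norm_eq_matrix_det basisK, leftMul_el, Matrix.det_fin_three]
  simp
  ring

theorem isIntegral_phi : IsIntegral ℤ phi :=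
  ⟨X ^ 3 + C 2 * X ^ 2 + C 2, by monicity!, by simpa using phi_eq⟩

/-- The root as an algebraic integer. -/
def phiO : 𝓞 K := ⟨phi, isIntegral_phi⟩

@[simp] theorem coe_phiO : (phiO : K) = phi := rfl

theorem phiO_eq : phiO ^ 3 + 2 * phiO ^ 2 + 2 = 0 :=
  RingOfIntegers.ext (by simpa [map_ofNat] using phi_eq)

/-! ### The discriminant and the class number -/

theorem discr_powers : Algebra.discr ℚ (fun j : Fin 3 => phi ^ (j : ℕ)) = -172 := by
  have htr : ∀ x y z : ℚ, Algebra.trace ℚ K (el x y z) = 3 * x - 2 * y + 4 * z := fun x y z => by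
    rw [Algebra.trace_eq_matrix_trace basisK, leftMul_el, Matrix.trace_fin_three]
    simp
    ring
  have hM : Algebra.traceMatrix ℚ (fun j : Fin 3 => phi ^ (j : ℕ)) =
      !![3, -2, 4; -2, 4, -14; 4, -14, 32] := by
    ext i j
    rw [Algebra.traceMatrix_apply, Algebra.traceForm_apply, ← pow_add]
    have h0 : phi ^ 0 = el 1 0 0 := by simp [el]
    have h1 : phi ^ 1 = el 0 1 0 := by simp [el]
    have h2 : phi ^ 2 = el 0 0 1 := by simp [el]
    have h3 : phi ^ 3 = el (-2) 0 (-2) := by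
      simp [el]; linear_combination phi_eq
    have h4 : phi ^ 4 = el 4 (-2) 4 := by
      simp [el]; linear_combination (phi - 2) * phi_eq
    have ht1 : Algebra.trace ℚ K 1 = 3 := by
      simpa [el] using htr 1 0 0
    have htp : Algebra.trace ℚ K phi = -2 := by
      simpa [el] using htr 0 1 0
    fin_cases i <;> fin_cases j <;> norm_num [ht1, htp, h0, h1, h2, h3, h4, htr]
  rw [Algebra.discr_def, hM, Matrix.det_fin_three]
  simp
  norm_num

theorem abs_discr_le : |discr K| ≤ 172 := by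
  classical
  set b : Fin 3 → K := fun j => phi ^ (j : ℕ) with hb
  have hint : ∀ i, IsIntegral ℤ (b i) := fun i => isIntegral_phi.pow _
  let e : Fin 3 ≃ Free.ChooseBasisIndex ℤ (𝓞 K) := Fintype.equivOfCardEq (by
    rw [Fintype.card_fin, ← finrank_K, ← Module.finrank_eq_card_basis (integralBasis K)])
  let bas := (integralBasis K).reindex e.symm
  let P₀ : Matrix (Fin 3) (Fin 3) ℤ := fun i j =>
    (RingOfIntegers.basis K).repr (⟨b j, hint j⟩ : 𝓞 K) (e i)
  have hP : bas.toMatrix b = P₀.map (algebraMap ℤ ℚ) := by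
    ext i j
    rw [Basis.toMatrix_apply, Basis.repr_reindex_apply, Matrix.map_apply, e.symm_symm]
    exact integralBasis_repr_apply K (⟨b j, hint j⟩ : 𝓞 K) (e i)
  have h := Algebra.discr_of_matrix_vecMul (A := ℚ) (bas : Fin 3 → K) (bas.toMatrix b)
  rw [Basis.toMatrix_map_vecMul, Basis.coe_reindex, e.symm_symm,
    show (integralBasis K : _ → K) ∘ e = (integralBasis K) ∘ ⇑e.symm.symm from rfl,
    Algebra.discr_reindex, ← coe_discr, hP,
    show P₀.map (algebraMap ℤ ℚ) = (algebraMap ℤ ℚ).mapMatrix P₀ from rfl, ← RingHom.map_det,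
    hb, discr_powers] at h
  have h' : (-172 : ℤ) = P₀.det ^ 2 * discr K := by
    rw [eq_intCast] at h
    exact_mod_cast h
  exact Int.le_of_dvd (by norm_num) ((abs_dvd _ _).mpr ⟨-P₀.det ^ 2, by linear_combination -h'⟩)

/-! ### Signature -/

theorem nrRealPlaces_le_one : InfinitePlace.nrRealPlaces K ≤ 1 := by
  classical
  rw [InfinitePlace.nrRealPlaces, Fintype.card_le_one_iff]
  rintro ⟨w, hw⟩ ⟨w', hw'⟩
  apply Subtype.ext
  set σ := InfinitePlace.embedding_of_isReal hw with hσ
  set τ := InfinitePlace.embedding_of_isReal hw' with hτ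
  have h1 : σ phi ^ 3 + 2 * σ phi ^ 2 + 2 = 0 := by
    simpa [map_ofNat] using congrArg σ phi_eq
  have h2 : τ phi ^ 3 + 2 * τ phi ^ 2 + 2 = 0 := by
    simpa [map_ofNat] using congrArg τ phi_eq
  have hlt : ∀ {t : ℝ}, t ^ 3 + 2 * t ^ 2 + 2 = 0 → t < -2 := fun {t} ht => by
    by_contra! hge
    nlinarith [mul_nonneg (mul_self_nonneg t) (show 0 ≤ t + 2 by linarith)]
  have he : σ phi = τ phi := by
    by_contra hne
    have h3 : σ phi ^ 2 + σ phi * τ phi + τ phi ^ 2 + 2 * σ phi + 2 * τ phi = 0 :=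
      (mul_eq_zero.mp (show (σ phi - τ phi) * (σ phi ^ 2 + σ phi * τ phi + τ phi ^ 2 + 2 * σ phi +
        2 * τ phi) = 0 by linear_combination h1 - h2)).resolve_left (sub_ne_zero.mpr hne)
    nlinarith [mul_pos_of_neg_of_neg (show σ phi + 2 < 0 by linarith [hlt h1])
      (show τ phi + 2 < 0 by linarith [hlt h2]), mul_pos_of_neg_of_neg
      (show σ phi + 2 < 0 by linarith [hlt h1]) (show σ phi < 0 by linarith [hlt h1]),
      mul_pos_of_neg_of_neg (show τ phi + 2 < 0 by linarith [hlt h2])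
      (show τ phi < 0 by linarith [hlt h2]), hlt h1, hlt h2]
  refine (InfinitePlace.mk_embedding w).symm.trans ((congrArg InfinitePlace.mk ?_).trans
    (InfinitePlace.mk_embedding w'))
  refine RingHom.ext fun k => ?_
  obtain ⟨x, y, z, rfl⟩ := exists_el k
  have e1 : ((σ phi : ℝ) : ℂ) = w.embedding phi := InfinitePlace.embedding_of_isReal_apply hw phi
  have e2 : ((τ phi : ℝ) : ℂ) = w'.embedding phi := InfinitePlace.embedding_of_isReal_apply hw' phi
  simp only [el, map_add, map_mul, map_pow, map_ratCast, ← e1, ← e2, he]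

theorem signature : InfinitePlace.nrRealPlaces K = 1 ∧ InfinitePlace.nrComplexPlaces K = 1 := by
  have h := InfinitePlace.card_add_two_mul_card_eq_rank K
  have := nrRealPlaces_le_one
  rw [finrank_K] at h
  omega

theorem prime_of_norm {π : 𝓞 K} {n : ℤ} (hn : n.natAbs.Prime)
    (h : Algebra.norm ℚ (π : K) = n) : Prime π := by
  have h' : Algebra.norm ℤ π = n := by
    rw [← Algebra.coe_norm_int] at h; exact_mod_cast h
  have hπ : π ≠ 0 := fun e => by
    rw [e, Algebra.norm_zero] at h'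
    rw [← h'] at hn
    exact Nat.not_prime_zero hn
  rw [← Ideal.span_singleton_prime hπ]
  refine Ideal.isPrime_of_irreducible_absNorm ?_
  rw [Ideal.absNorm_span_singleton, h']
  exact hn.prime.irreducible

theorem norm_phi : Algebra.norm ℚ phi = -2 := by
  rw [show phi = el 0 1 0 by simp [el], norm_el]
  norm_num

theorem prime_phiO : Prime phiO :=
  prime_of_norm (n := -2) (by norm_num) (by rw [coe_phiO, norm_phi]; norm_num)

theorem isPrincipalIdealRing_K : IsPrincipalIdealRing (𝓞 K) := by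
  refine RingOfIntegers.isPrincipalIdealRing_of_isPrincipal_of_norm_le_of_isPrime fun I hI hN => ?_
  have hlt : (4 / Real.pi) ^ InfinitePlace.nrComplexPlaces K *
      ((Nat.factorial (finrank ℚ K)) / (finrank ℚ K : ℝ) ^ (finrank ℚ K) * √|(discr K : ℝ)|) < 4 := by
    rw [signature.2, finrank_K, pow_one, show Nat.factorial 3 = 6 from rfl]
    have hs : √|(discr K : ℝ)| ≤ 132 / 10 := by
      rw [← Real.sqrt_sq (show (0 : ℝ) ≤ 132 / 10 by norm_num)]
      refine Real.sqrt_le_sqrt ?_
      rw [← Int.cast_abs]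
      exact le_trans (Int.cast_le.2 abs_discr_le) (by norm_num)
    have hpi : 4 / Real.pi < 13 / 10 := by
      rw [div_lt_div_iff₀ Real.pi_pos (by norm_num)]
      nlinarith [Real.pi_gt_d2]
    calc _ ≤ (13 / 10 : ℝ) * (6 / 3 ^ 3 * (132 / 10)) := by push_cast; gcongr
      _ < 4 := by norm_num
  set n := Ideal.absNorm (I : Ideal (𝓞 K)) with hn
  have hn4 : n < 4 := by
    have : ((n : ℕ) : ℝ) < ((4 : ℕ) : ℝ) := by push_cast; exact hN.trans_lt hlt
    exact_mod_cast this
  have h0 : n ≠ 0 := by rw [hn, Ne, Ideal.absNorm_eq_zero_iff]; exact nonZeroDivisors.coe_ne_zero I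
  have h1 : n ≠ 1 := fun e => hI.ne_top (Ideal.absNorm_eq_one_iff.1 e)
  have principal : ∀ {π : 𝓞 K}, Prime π → π ∈ (I : Ideal (𝓞 K)) →
      Submodule.IsPrincipal (I : Ideal (𝓞 K)) := fun {π} hπ h => by
    have hmax : (Ideal.span {π}).IsMaximal :=
      ((Ideal.span_singleton_prime hπ.ne_zero).mpr hπ).isMaximal
        (by simpa [Ideal.span_singleton_eq_bot] using hπ.ne_zero)
    exact ⟨⟨π, (hmax.eq_of_le hI.ne_top ((Ideal.span_singleton_le_iff_mem _).mpr h)).symm⟩⟩
  have hmem : (n : 𝓞 K) ∈ (I : Ideal (𝓞 K)) := Ideal.absNorm_mem _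
  rcases (show n = 2 ∨ n = 3 by omega) with e | e <;> rw [e, Nat.cast_ofNat] at hmem
  · exact principal prime_phiO (hI.mem_of_pow_mem 3 (by
      rw [show phiO ^ 3 = 2 * (-phiO ^ 2 - 1) by linear_combination phiO_eq]
      exact Ideal.mul_mem_right _ _ hmem))
  have hprod : (phiO + 1) * (phiO ^ 2 + phiO - 1) ∈ (I : Ideal (𝓞 K)) := by
    rw [show (phiO + 1) * (phiO ^ 2 + phiO - 1) = -3 by linear_combination phiO_eq]
    exact neg_mem hmem
  rcases hI.mem_or_mem hprod with h | h
  · refine principal (prime_of_norm (n := -3) (by norm_num) ?_) h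
    rw [show ((phiO + 1 : 𝓞 K) : K) = el 1 1 0 by simp [el]; ring, norm_el]
    norm_num
  exfalso
  set Q := (I : Ideal (𝓞 K))
  haveI : Q.IsMaximal := hI.isMaximal (nonZeroDivisors.coe_ne_zero I)
  letI : Field (𝓞 K ⧸ Q) := Ideal.Quotient.field Q
  haveI : Finite (𝓞 K ⧸ Q) := Nat.finite_of_card_ne_zero (by
    rw [← Submodule.cardQuot_apply, ← Ideal.absNorm_apply, ← hn, e]; norm_num)
  haveI := Fintype.ofFinite (𝓞 K ⧸ Q)
  have hcard : Fintype.card (𝓞 K ⧸ Q) = 3 := by
    rw [← Nat.card_eq_fintype_card, ← Submodule.cardQuot_apply, ← Ideal.absNorm_apply, ← hn, e]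
  set a := Ideal.Quotient.mk Q phiO
  have ha : a ^ 2 + a - 1 = 0 := by
    have := Ideal.Quotient.eq_zero_iff_mem.mpr h
    simpa [a] using this
  have h3 : (3 : 𝓞 K ⧸ Q) = 0 := by
    simpa [map_ofNat] using Ideal.Quotient.eq_zero_iff_mem.mpr hmem
  have hu3 : (2 * a + 1) ^ 3 = 2 * a + 1 := by
    simpa [hcard] using FiniteField.pow_card (2 * a + 1)
  have hu0 : 2 * a + 1 = (0 : 𝓞 K ⧸ Q) := by
    linear_combination hu3 - (2 * a + 1) * (4 * ha) - (2 * a + 1) * h3
  exact one_ne_zero (show (1 : 𝓞 K ⧸ Q) = 0 by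
    linear_combination -(2 * a + 1) * hu0 + 4 * ha + 2 * h3)

theorem rank_K : Units.rank K = 1 := by
  have h := InfinitePlace.card_eq_nrRealPlaces_add_nrComplexPlaces (K := K)
  rw [signature.1, signature.2] at h
  show Fintype.card (InfinitePlace K) - 1 = 1
  omega

/-! ### Units modulo squares -/

/-- Units of norm one are a square or one fixed element times a square. -/
theorem exists_class : ∃ c : K, ∀ u : (𝓞 K)ˣ, Algebra.norm ℚ ((u : 𝓞 K) : K) = 1 →
    ∃ η : K, ((u : 𝓞 K) : K) = η ^ 2 ∨ ((u : 𝓞 K) : K) = c * η ^ 2 := by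
  classical
  have hodd : Odd (finrank ℚ K) := by rw [finrank_K]; decide
  let q : Fin 1 ≃ Fin (Units.rank K) := finCongr rank_K.symm
  set F : K := ((Units.fundSystem K (q 0) : 𝓞 K) : K) with hF
  have hF0 : F ≠ 0 := by rw [hF]; exact Units.coe_ne_zero _
  refine ⟨(Algebra.norm ℚ F : K) * F, fun u hu => ?_⟩
  obtain ⟨⟨t, f⟩, hv, -⟩ := Units.exist_unique_eq_mul_prod K u
  have ht : (((t : (𝓞 K)ˣ) : 𝓞 K) : K) = 1 ∨ (((t : (𝓞 K)ˣ) : 𝓞 K) : K) = -1 := by
    rcases Units.torsion_eq_one_or_neg_one_of_odd_finrank hodd t with h | h <;> simp [h]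
  have hm1 : Algebra.norm ℚ (-1 : K) = -1 := by
    rw [show (-1 : K) = el (-1) 0 0 by simp [el], norm_el]; norm_num
  have hv' : ((u : 𝓞 K) : K) = (((t : (𝓞 K)ˣ) : 𝓞 K) : K) * F ^ f (q 0) := by
    rw [hv, ← Equiv.prod_comp q, Fin.prod_univ_one]
    simp [hF, Units.coe_zpow]
  have hNF : IsUnit (Algebra.norm ℤ ((Units.fundSystem K (q 0) : 𝓞 K))) :=
    (Units.isUnit _).map _
  have hNF' : Algebra.norm ℚ F = 1 ∨ Algebra.norm ℚ F = -1 := by
    rw [hF, ← Algebra.coe_norm_int]
    rcases Int.isUnit_iff.mp hNF with e | e <;> simp [e]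
  rw [hv'] at hu ⊢
  obtain ⟨j, hj | hj⟩ := Int.even_or_odd' (f (q 0))
  · have e : F ^ f (q 0) = (F ^ j) ^ 2 := by
      rw [hj, mul_comm 2 j, zpow_mul]; norm_cast
    rw [e] at hu ⊢
    rcases ht with ht | ht <;> rw [ht] at hu ⊢
    · exact ⟨F ^ j, Or.inl (by rw [one_mul])⟩
    · rw [map_mul, map_pow, hm1] at hu
      nlinarith [sq_nonneg (Algebra.norm ℚ (F ^ j))]
  · have e : F ^ f (q 0) = F * (F ^ j) ^ 2 := by
      rw [hj, zpow_add_one₀ hF0, mul_comm 2 j, zpow_mul, mul_comm]; norm_cast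
    rw [e] at hu ⊢
    refine ⟨F ^ j, Or.inr ?_⟩
    rcases ht with ht | ht <;> rcases hNF' with hNF' | hNF' <;> rw [ht] at hu ⊢ <;> rw [hNF'] <;>
      first
        | (push_cast; ring; done)
        | (rw [map_mul, map_mul, map_pow, hNF'] at hu
           simp only [map_one, hm1] at hu
           nlinarith [sq_nonneg (Algebra.norm ℚ (F ^ j))])

/-! ### A prime over `43` -/

/-- A prime over `43`. -/
def piFortyThree : 𝓞 K := 3 - 4 * phiO - 2 * phiO ^ 2

theorem norm_piFortyThree : Algebra.norm ℚ (piFortyThree : K) = 43 := by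
  rw [show (piFortyThree : K) = el 3 (-4) (-2) by simp [piFortyThree, el, map_ofNat]; ring, norm_el]
  norm_num

theorem prime_piFortyThree : Prime piFortyThree :=
  prime_of_norm (n := 43) (by norm_num) (by rw [norm_piFortyThree]; norm_num)

end FA.Curve43

end
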