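import Fermat.Agent.Curve11.Descent
import Fermat.Agent.Curve43.Field
import Fermat.Agent.TwoDescent.Short

/-!
# Two-descent on `W² = X³ + 4 X² + 16`

For a rational point `X - θ` is a square or one fixed element times a square in the cubic field.
-/

set_option autoImplicit false
set_option linter.style.haveILetI false
set_option linter.unusedSimpArgs false
set_option linter.unusedTactic false

noncomputable section

open NumberField

namespace FA.Curve43

/-- The root of `X³ + 4 X² + 16`. -/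
def theta : K := 2 * phi

/-- The root as an algebraic integer. -/
def thetaO : 𝓞 K := 2 * phiO

theorem coe_thetaO : (thetaO : K) = theta := by simp [thetaO, theta, map_ofNat]

theorem theta_eq : theta ^ 3 + 4 * theta ^ 2 + 16 = 0 := by
  simp only [theta]
  linear_combination 8 * phi_eq

theorem thetaO_eq : thetaO ^ 3 + 4 * thetaO ^ 2 + 16 = 0 :=
  RingOfIntegers.ext (by simpa [coe_thetaO, map_ofNat] using theta_eq)

theorem el_sub_theta (X : ℚ) : (X : K) - theta = el X (-2) 0 := by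
  simp [theta, el]; ring

theorem quad_theta_eq_zero {a b c : ℚ}
    (h : (a : K) * theta ^ 2 + (b : K) * theta + (c : K) = 0) : a = 0 ∧ b = 0 ∧ c = 0 := by
  have h' : el c (2 * b) (4 * a) = el 0 0 0 := by
    simp only [theta] at h
    simp [el]
    linear_combination h
  obtain ⟨h0, h1, h2⟩ := el_inj h'
  exact ⟨by linarith, by linarith, h0⟩

theorem span_theta (k : K) :
    ∃ x y z : ℚ, k = (x : K) + (y : K) * theta + (z : K) * theta ^ 2 := by
  obtain ⟨x, y, z, rfl⟩ := exists_el k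
  refine ⟨x, y / 2, z / 4, ?_⟩
  simp only [el, theta]
  push_cast
  ring

/-- **The two-descent**: for one element `c`, every `X - θ` is a square or `c` times one. -/
theorem sub_theta_class : ∃ c : K, ∀ X W : ℚ, W ^ 2 = X ^ 3 + 4 * X ^ 2 + 0 * X + 16 →
    ∃ s : K, (X : K) - theta = s ^ 2 ∨ (X : K) - theta = c * s ^ 2 := by
  obtain ⟨c₀, hc₀⟩ := exists_class
  refine ⟨c₀, fun X W h => ?_⟩
  replace h : W ^ 2 = X ^ 3 + 4 * X ^ 2 + 16 := by linear_combination h
  haveI := isPrincipalIdealRing_K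
  set n := X.num
  set q : ℤ := (X.den : ℤ) with hqd
  have hq : 0 < q := Int.natCast_pos.2 X.den_pos
  have hq0 : (q : ℚ) ≠ 0 := by exact_mod_cast hq.ne'
  have hX : X * (q : ℚ) = (n : ℚ) := by
    rw [hqd, Int.cast_natCast]; exact Rat.mul_den_eq_num X
  have hco : IsCoprime n q := Int.isCoprime_iff_gcd_eq_one.2 X.reduced
  set H : ℤ := n ^ 3 + 4 * n ^ 2 * q + 16 * q ^ 3 with hH
  have hXne : (X : K) - theta ≠ 0 := fun e => by
    rw [el_sub_theta, show (0 : K) = el 0 0 0 by simp [el]] at e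
    have := (el_inj e).2.1
    norm_num at this
  have hnorm : Algebra.norm ℚ ((X : K) - theta) = X ^ 3 + 4 * X ^ 2 + 16 := by
    rw [el_sub_theta, norm_el]; ring
  have hW : W ≠ 0 := fun e => by
    rw [e] at h
    exact (Algebra.norm_ne_zero_iff.mpr hXne) (by rw [hnorm, ← h]; ring)
  obtain ⟨M, hM⟩ : ∃ M : ℤ, M ^ 2 = q * H := by
    have h1 : IsSquare ((q * H : ℤ) : ℚ) := ⟨W * (q : ℚ) ^ 2, by
      rw [hH]; push_cast; rw [← hX]
      linear_combination -(q : ℚ) ^ 4 * h⟩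
    obtain ⟨M, hM⟩ := Rat.isSquare_intCast_iff.1 h1
    exact ⟨M, by rw [hM, sq]⟩
  have hqH : IsCoprime q H := by
    have := (hco.pow_left (m := 3)).symm.add_mul_left_right (4 * n ^ 2 + 16 * q ^ 2)
    rwa [show n ^ 3 + q * (4 * n ^ 2 + 16 * q ^ 2) = H by rw [hH]; ring] at this
  have hHq : (H : ℚ) = W ^ 2 * (q : ℚ) ^ 3 := by
    rw [hH]; push_cast; rw [← hX]; linear_combination -(q : ℚ) ^ 3 * h
  have hHpos : 0 < H := by
    have : (0 : ℚ) < H := by
      rw [hHq]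
      have : (0 : ℚ) < q := by exact_mod_cast hq
      positivity
    exact_mod_cast this
  obtain ⟨d, hd | hd⟩ := Int.sq_of_isCoprime hqH hM.symm
  swap
  · nlinarith [sq_nonneg d]
  obtain ⟨b, hb | hb⟩ := Int.sq_of_isCoprime hqH.symm ((mul_comm H q).trans hM.symm)
  swap
  · nlinarith [sq_nonneg b]
  set γ : 𝓞 K := (n : 𝓞 K) - thetaO * (q : 𝓞 K) with hγ
  set G : 𝓞 K := (n : 𝓞 K) ^ 2 + (thetaO + 4) * (n : 𝓞 K) * (q : 𝓞 K) +
    (thetaO ^ 2 + 4 * thetaO) * (q : 𝓞 K) ^ 2 with hG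
  have hγK : (γ : K) = ((q : ℚ) : K) * ((X : K) - theta) := by
    have hXK : (X : K) * ((q : ℚ) : K) = ((n : ℚ) : K) := by exact_mod_cast hX
    simp [hγ, coe_thetaO]
    push_cast at hXK
    linear_combination -hXK
  have hγ0 : γ ≠ 0 := fun e => by
    rw [e] at hγK
    simp only [map_zero] at hγK
    rcases mul_eq_zero.mp hγK.symm with e' | e'
    · exact hq0 (by exact_mod_cast e')
    · exact hXne e'
  have hγG : γ * G = (b : 𝓞 K) ^ 2 := by
    have hH' : ((H : ℤ) : 𝓞 K) = (b : 𝓞 K) ^ 2 := by rw [hb]; push_cast; rfl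
    rw [← hH', hH, hγ, hG]
    push_cast
    linear_combination -(q : 𝓞 K) ^ 3 * thetaO_eq
  have htwo : phiO ^ 3 = 2 * (-phiO ^ 2 - 1) := by linear_combination phiO_eq
  have hcommon : ∀ P : 𝓞 K, Prime P → P ∣ γ → P ∣ G → P ∣ phiO ∨ P ∣ piFortyThree := by
    intro P hP h1 h2
    have h3 : P ∣ (4 * (phiO ^ 2 * piFortyThree)) * (q : 𝓞 K) ^ 2 := by
      have := dvd_sub h2 (dvd_mul_of_dvd_left h1
        ((n : 𝓞 K) + thetaO * (q : 𝓞 K) + (thetaO + 4) * (q : 𝓞 K)))
      convert this using 1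
      simp only [hγ, hG, thetaO, piFortyThree]
      linear_combination (-8 * phiO) * (q : 𝓞 K) ^ 2 * phiO_eq
    rcases hP.dvd_or_dvd h3 with h3 | h3
    swap
    · have h4 := hP.dvd_of_dvd_pow h3
      have h5 : P ∣ (n : 𝓞 K) := by
        have := dvd_add h1 (dvd_mul_of_dvd_right h4 thetaO)
        rwa [hγ, sub_add_cancel] at this
      exact absurd ((hco.map (Int.castRingHom (𝓞 K))).isUnit_of_dvd' h5 h4) hP.not_isUnit
    rcases hP.dvd_or_dvd h3 with h3 | h3
    · rw [show (4 : 𝓞 K) = 2 * 2 by norm_num] at h3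
      have h4 : P ∣ (2 : 𝓞 K) := (hP.dvd_or_dvd h3).elim id id
      exact Or.inl (hP.dvd_of_dvd_pow (n := 3) (htwo ▸ dvd_mul_of_dvd_left h4 _))
    rcases hP.dvd_or_dvd h3 with h3 | h3
    · exact Or.inl (hP.dvd_of_dvd_pow h3)
    · exact Or.inr h3
  obtain ⟨u, j, k, t, ht⟩ := FA.Curve11.decomp_of_mul_eq_sq prime_phiO prime_piFortyThree γ G _ hγ0 hγG hcommon
  obtain ⟨j', j₀, hj, rfl⟩ : ∃ j' j₀, j₀ < 2 ∧ j = j₀ + 2 * j' :=
    ⟨j / 2, j % 2, Nat.mod_lt _ two_pos, (Nat.mod_add_div j 2).symm⟩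
  obtain ⟨k', k₀, hk, rfl⟩ : ∃ k' k₀, k₀ < 2 ∧ k = k₀ + 2 * k' :=
    ⟨k / 2, k % 2, Nat.mod_lt _ two_pos, (Nat.mod_add_div k 2).symm⟩
  set T : K := (phiO : K) ^ j' * (piFortyThree : K) ^ k' * (t : K) with hT
  have hγT : (γ : K) = ((u : 𝓞 K) : K) * (phiO : K) ^ j₀ * (piFortyThree : K) ^ k₀ * T ^ 2 := by
    rw [ht, hT]; simp only [map_mul, map_pow]; ring
  have hd0 : (d : ℚ) ≠ 0 := by
    intro e'
    rw [hd, Int.cast_pow, e'] at hq0
    exact hq0 (by norm_num)
  set S : K := T / ((d : ℚ) : K) with hS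
  have hXT : (X : K) - theta = ((u : 𝓞 K) : K) * (phiO : K) ^ j₀ * (piFortyThree : K) ^ k₀ * S ^ 2 := by
    have hdK : ((d : ℚ) : K) ≠ 0 := by exact_mod_cast hd0
    rw [hS, div_pow, ← mul_div_assoc, ← hγT, hγK, hd, eq_div_iff (pow_ne_zero _ hdK)]
    push_cast
    ring
  have hS0 : S ≠ 0 := fun e' => hXne (by rw [hXT, e']; ring)
  set N := Algebra.norm ℚ S
  have hN0 : N ≠ 0 := Algebra.norm_ne_zero_iff.mpr hS0
  have hn := congrArg (Algebra.norm ℚ) hXT
  rw [hnorm, ← h, map_mul, map_mul, map_mul, map_pow, map_pow, map_pow, coe_phiO, norm_phi,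
    norm_piFortyThree] at hn
  have hNu : Algebra.norm ℚ ((u : 𝓞 K) : K) = 1 ∨ Algebra.norm ℚ ((u : 𝓞 K) : K) = -1 := by
    rw [← Algebra.coe_norm_int]
    rcases Int.isUnit_iff.mp (u.isUnit.map (Algebra.norm ℤ)) with e | e <;> simp [e]
  have notsq : ∀ r : ℤ, ¬ IsSquare r → W ^ 2 ≠ (r : ℚ) * N ^ 2 := fun r hr e' =>
    hr (Rat.isSquare_intCast_iff.1 ⟨W / N, by field_simp; linear_combination -e'⟩)
  have bad : ∀ r : ℤ, r ∈ [-1, 2, -2, 43, -43, 86, -86] → W ^ 2 ≠ (r : ℚ) * N ^ 2 := by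
    intro r hr
    refine notsq r ?_
    fin_cases hr <;> decide +kernel
  have b1 : W ^ 2 ≠ -(N ^ 2) := by simpa using bad (-1) (by simp)
  have b2 : W ^ 2 ≠ 2 * N ^ 2 := by simpa using bad 2 (by simp)
  have b3 : W ^ 2 ≠ -(2 * N ^ 2) := by simpa using bad (-2) (by simp)
  have b4 : W ^ 2 ≠ 43 * N ^ 2 := by simpa using bad 43 (by simp)
  have b5 : W ^ 2 ≠ -(43 * N ^ 2) := by simpa using bad (-43) (by simp)
  have b6 : W ^ 2 ≠ 86 * N ^ 2 := by simpa using bad 86 (by simp)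
  have b7 : W ^ 2 ≠ -(86 * N ^ 2) := by simpa using bad (-86) (by simp)
  obtain ⟨rfl, rfl, hu1⟩ : j₀ = 0 ∧ k₀ = 0 ∧ Algebra.norm ℚ ((u : 𝓞 K) : K) = 1 := by
    rcases hNu with e | e <;> rw [e] at hn <;> interval_cases j₀ <;> interval_cases k₀ <;>
      norm_num at hn <;>
      first
        | exact ⟨rfl, rfl, e⟩
        | (exfalso
           first
             | (apply b1; linarith; done)
             | (apply b2; linarith; done)
             | (apply b3; linarith; done)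
             | (apply b4; linarith; done)
             | (apply b5; linarith; done)
             | (apply b6; linarith; done)
             | (apply b7; linarith; done))
  rw [pow_zero, pow_zero, mul_one, mul_one] at hXT
  obtain ⟨η, hη | hη⟩ := hc₀ u hu1
  · exact ⟨η * S, Or.inl (by rw [hXT, hη]; ring)⟩
  · exact ⟨η * S, Or.inr (by rw [hXT, hη]; ring)⟩

end FA.Curve43

end
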