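import Fermat.Agent.Curve43.Descent
import Fermat.Agent.Curve37.Main

/-!
# The Mordell–Weil group of `43a1`

`y² + y = x³ + x²` has group of rational points isomorphic to `ℤ`: every point is twice a point or
one fixed point plus such a point, the torsion is trivial and there are infinitely many points.
-/

set_option autoImplicit false
set_option linter.style.haveILetI false

noncomputable section

open WeierstrassCurve
open FA.Frob (vcEquiv)
open FA.Torsion (shortCurve)

namespace FA.Curve43

/-- The curve `43a1`. -/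
abbrev curve : WeierstrassCurve ℚ := ⟨0, 1, 1, 0, 0⟩

instance isElliptic_curve : curve.IsElliptic :=
  ⟨isUnit_iff_ne_zero.mpr (by norm_num [Δ, b₂, b₄, b₆, b₈])⟩

/-- The change of coordinates to `W² = X³ + 4 X² + 16`. -/
def toShort : VariableChange ℚ := ⟨Units.mk0 (1 / 2) (by norm_num), 0, 0, -1 / 2⟩

theorem toShort_smul : toShort • curve = shortCurve 4 0 16 := by
  ext <;> simp [toShort, shortCurve, variableChange_a₁, variableChange_a₂, variableChange_a₃,
    variableChange_a₄, variableChange_a₆] <;> norm_num

theorem two_divisible_or :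
    ∃ B : curve.toAffine.Point, ∀ P, ∃ R, P = 2 • R ∨ P = B + 2 • R := by
  haveI : (shortCurve (4 : ℚ) 0 16).IsElliptic := toShort_smul ▸ inferInstance
  obtain ⟨c, hc⟩ := sub_theta_class
  obtain ⟨B, hB⟩ := FA.TwoDescent.exists_half_or (a := 4) (b := 0) (d := 16)
    (by push_cast; linear_combination theta_eq)
    (fun A B C h => quad_theta_eq_zero h) span_theta c hc
  set φ := vcEquiv toShort toShort_smul
  refine ⟨φ B, fun P => ?_⟩
  obtain ⟨R, hR | hR⟩ := hB (φ.symm P)
  · exact ⟨φ R, Or.inl (by rw [← map_nsmul, ← hR, AddEquiv.apply_symm_apply])⟩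
  · exact ⟨φ R, Or.inr (by rw [← map_nsmul, ← map_add, ← hR, AddEquiv.apply_symm_apply])⟩

end FA.Curve43

namespace FA.Summary

open FA.Curve43

/-- **The Mordell–Weil group of `43a1`** is `ℤ`. -/
theorem point_group_curve43 :
    Nonempty ((⟨0, 1, 1, 0, 0⟩ : WeierstrassCurve ℚ).toAffine.Point ≃+ ℤ) := by
  haveI := FA.MordellWeil.mordell curve
  obtain ⟨r, ⟨e⟩⟩ := FA.MordellWeil.exists_equiv_torsion_prod curve.toAffine.Point
  have hT : Subsingleton (AddCommGroup.torsion curve.toAffine.Point) :=
    (Nat.card_eq_one_iff_unique.mp (Nat.dvd_one.mp FA.Central.torsion_trivial_43.2)).1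
  obtain ⟨B, hB⟩ := two_divisible_or
  have h1 : r ≤ 1 := FA.Curve37.rank_le_one e B hB
  have h0 : r ≠ 0 := by
    rintro rfl
    haveI : Infinite curve.toAffine.Point := rankOne_43a1.2.2.1
    haveI := FA.Central.torsion_trivial_43.1
    exact not_finite_iff_infinite.mpr ‹Infinite curve.toAffine.Point›
      (Finite.of_equiv _ e.toEquiv.symm)
  obtain rfl : r = 1 := by omega
  exact ⟨e.trans
    { toFun := fun x => x.2 0
      invFun := fun k => (0, fun _ => k)
      left_inv := fun x => Prod.ext (Subsingleton.elim _ _) (funext fun i => by fin_cases i; rfl)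
      right_inv := fun _ => rfl
      map_add' := fun _ _ => rfl }⟩

end FA.Summary

end
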